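/-
GATE-B / T1 (GB-TOP-TWHYP-FREY), nontriviality half, leaf (b) (helper96).

A `p`-torsion point `(x, y)` of the Frey curve whose `x`-coordinate is fixed by the inertia group
`I_A` of a valuation subring `A | 2` of `ℚ̄` does NOT reduce to the node: `x ∉ 𝔪_A`.

Proof: the component theory at `2` (`S13.AtTwo.c2Hyp_frey`) gives `0 < v(x) < v(a₄)` and
`p · v(x) = 2 · v(a₄) · j`; the inertia field has value group `ℤ` (`GL.Local.InertiaField`), and
`v(a₄) + 4 = p · β` (`padicValInt_A4`), which is impossible (`no_small_component`).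

Consequence (`exists_moved_of_node_point`): a `p`-torsion point with `x ∈ 𝔪_A` is moved by some
element of `I_A`.
-/
import Fermat.Agent.S13.AtTwoFrey
import Fermat.Agent.GL.Local.InertiaFieldBase

set_option autoImplicit false
set_option linter.unusedSectionVars false
set_option linter.unusedVariables false

open WeierstrassCurve WeierstrassCurve.Affine

namespace Fermat.Agent.GB.Top.FreyTwo.FixedX

open Fermat.Agent.S05 Fermat.Agent.S51_helper12 Fermat.Agent.S13.AtTwo
open Fermat.Agent.GL.Local.InertiaField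
open WeierstrassCurve.Affine.Point

variable {P : FreyPackage} {A : ValuationSubring Qbar} {hA : A.LiesOverPrime 2}

/-- the normalised `2`-adic valuation of a nonzero `I_A`-fixed element is an integer. -/
theorem qval_fixed_int (hA : A.LiesOverPrime 2) {x : Qbar} (hx0 : x ≠ 0)
    (hfix : ∀ σ ∈ A.inertiaSubgroupIn ℚ, σ x = x) :
    ∃ k : ℤ, (RankOne.qvalOfSubring A Nat.prime_two hA).v x = k := by
  have h2 : ((2 : ℕ) : Qbar) ∈ A.nonunits :=
    (natCast_mem_nonunits_iff Nat.prime_two hA 2).2 dvd_rfl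
  obtain ⟨n, hn⟩ := exists_valuation_eq_zpow_of_mem_inertiaField A Nat.prime_two h2
    ((mem_inertiaField_iff A x).2 hfix) hx0
  refine ⟨n, ?_⟩
  rw [RankOne.qvalOfSubring_eq A Nat.prime_two hA hx0 one_pos (k := n) (by rw [pow_one]; exact hn)]
  simp

/-- **leaf (b).** A `p`-torsion point of the Frey curve with `I_A`-fixed `x`-coordinate lies on
the identity component at `2`. -/
theorem fixed_x_notMem_nonunits (hA : A.LiesOverPrime 2) (x y : Qbar)
    (h : ((P.freyCurve : Affine ℚ)⁄Qbar).Nonsingular x y)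
    (hT : P.p • (Point.some x y h : ((P.freyCurve : Affine ℚ)⁄Qbar).Point) = 0)
    (hfix : ∀ σ ∈ A.inertiaSubgroupIn ℚ, σ x = x) :
    x ∉ A.nonunits := by
  intro hm
  obtain ⟨hx0, hlt, j, hj⟩ := c2Hyp_frey P A hA x y h hT hm
  obtain ⟨k, hk⟩ := qval_fixed_int hA hx0 hfix
  have hpos := (RankOne.qvalOfSubring_pos_iff A Nat.prime_two hA hx0).2 hm
  rw [hk, qval_a₄] at hlt hj
  rw [hk] at hpos
  have hk0 : 0 < k := by exact_mod_cast hpos
  have hkn : k < (padicValInt 2 (A4 P) : ℤ) := by exact_mod_cast hlt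
  have hj' : (P.p : ℤ) * k = 2 * (padicValInt 2 (A4 P) : ℤ) * j := by exact_mod_cast hj
  have hp2 : P.p ≠ 2 := by have := P.hp5; omega
  exact no_small_component P.pp hp2 hj' hk0 hkn (padicValInt_A4 P)

/-- a `p`-torsion point of the Frey curve reducing to the node at `2` is moved by some element
of the inertia group `I_A`. -/
theorem exists_moved_of_node_point (hA : A.LiesOverPrime 2) (x y : Qbar)
    (h : ((P.freyCurve : Affine ℚ)⁄Qbar).Nonsingular x y)
    (hT : P.p • (Point.some x y h : ((P.freyCurve : Affine ℚ)⁄Qbar).Point) = 0)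
    (hm : x ∈ A.nonunits) :
    ∃ σ ∈ A.inertiaSubgroupIn ℚ,
      σ • (Point.some x y h : ((P.freyCurve : Affine ℚ)⁄Qbar).Point) ≠ Point.some x y h := by
  by_contra hcon
  push Not at hcon
  refine fixed_x_notMem_nonunits hA x y h hT (fun σ hσ => ?_) hm
  obtain ⟨h', e⟩ := smul_some P.freyCurve σ h
  have h1 := hcon σ hσ
  rw [e] at h1
  have h2 : σ x = x ∧ σ y = y := by simpa using h1
  exact h2.1

/-- the point-level hypothesis supplied by the node-point leaf (`NodePoint.lean`): some
`p`-torsion point of the Frey curve reduces to the node at `2`. -/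
def HasNodePoint (P : FreyPackage) (A : ValuationSubring Qbar) : Prop :=
  ∃ (x y : Qbar) (h : ((P.freyCurve : Affine ℚ)⁄Qbar).Nonsingular x y),
    P.p • (Point.some x y h : ((P.freyCurve : Affine ℚ)⁄Qbar).Point) = 0 ∧ x ∈ A.nonunits

/-- **nontriviality of inertia at `2` on `E[p]`** (given a node point). -/
theorem exists_moved_tors (hA : A.LiesOverPrime 2) (hnode : HasNodePoint P A) :
    ∃ σ ∈ A.inertiaSubgroupIn ℚ, ∃ t : Tors P.freyCurve P.p, σ • t ≠ t := by
  obtain ⟨x, y, h, hT, hm⟩ := hnode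
  obtain ⟨σ, hσ, hne⟩ := exists_moved_of_node_point hA x y h hT hm
  have hmem : (Point.some x y h : ((P.freyCurve : Affine ℚ)⁄Qbar).Point) ∈
      Submodule.torsionBy ℤ ((P.freyCurve : Affine ℚ)⁄Qbar).Point P.p := by
    rw [Submodule.mem_torsionBy_iff, natCast_zsmul]
    exact hT
  refine ⟨σ, hσ, ⟨_, hmem⟩, fun hfix => hne ?_⟩
  exact congrArg Subtype.val hfix

/-- **the transvection at `2`** (given a node point): some `σ ∈ I_A` acts on `E[p]` nontrivially
and unipotently, `(σ - 1)² = 0`. -/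
theorem exists_transvection_tors (hA : A.LiesOverPrime 2) (hnode : HasNodePoint P A) :
    ∃ σ : GalQ, (∃ t : Tors P.freyCurve P.p, σ • t ≠ t) ∧
      ∀ t : Tors P.freyCurve P.p, σ • (σ • t - t) = σ • t - t := by
  obtain ⟨σ, hσ, ht⟩ := exists_moved_tors hA hnode
  exact ⟨σ, ht, fun t => frey_unipotent_at_two P A hA σ hσ t⟩

end Fermat.Agent.GB.Top.FreyTwo.FixedX
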