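/-
GATE-B / TOP / TWHYP-FREY, support leaf (NODEPT) for the nontriviality of inertia at `2`
on the `p`-torsion of the Frey curve (helper96 GB/Top/FreyTwo/Nontriv.lean, helper64 TWHypFrey).

On a node model `y² + a₁xy = x³ + a₂x² + a₄x` (`a₄ ∈ 𝔪_A`, `a₃ = a₆ = 0`) over a valuation subring
`A` of an algebraically closed field of characteristic `0`, for an odd prime `p` which is a unit
of `A`, SOME nonzero `p`-torsion point reduces to the node: its `x`-coordinate lies in `𝔪_A`.

Proof: division polynomials vanish at the node.  `preΨ'_n(0)` is the `preNormEDS'` sequence with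
parameters `b₆²`, `b₈`, `b₄b₈ − b₆²`; the last two lie in `𝔪_A`, hence so does `preΨ'_n(0)` for
every `n ≥ 3` (EDS recursion).  But `preΨ'_p(0) = p ∏ (−rᵢ)` over the roots `rᵢ`, each of which
is the (integral) `x`-coordinate of a nonzero `p`-torsion point (S13 KEY); if all `rᵢ` were units
of `A`, so would be `preΨ'_p(0)`.  No group law on the special fibre, no counting.
-/
import Fermat.Agent.S13.AtTwoFixed
import Fermat.Agent.S13.DivFinal
import Fermat.Agent.S13.DP.Density

set_option autoImplicit false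
set_option linter.unusedSectionVars false

open WeierstrassCurve Polynomial

namespace Fermat.Agent.GB.Top.FreyTwo.NodePoint

/-! ### The EDS recursion preserves an ideal from index `3` on -/

section EDS

variable {R : Type*} [CommRing R]

theorem preNormEDS'_mem_of_mem (I : Ideal R) (b : R) {c d : R} (hc : c ∈ I) (hd : d ∈ I) :
    ∀ n : ℕ, 3 ≤ n → preNormEDS' b c d n ∈ I := by
  intro n
  induction n using Nat.strong_induction_on with
  | _ n ih =>
    intro hn
    rcases Nat.even_or_odd' n with ⟨k, rfl | rfl⟩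
    · rcases (show k = 2 ∨ 3 ≤ k by omega) with rfl | hk
      · simpa using hd
      · obtain ⟨m, rfl⟩ : ∃ m, k = m + 3 := ⟨k - 3, by omega⟩
        rw [preNormEDS'_even]
        have h3 := ih (m + 3) (by omega) (by omega)
        exact I.sub_mem (I.mul_mem_right _ (I.mul_mem_left _ h3))
          (I.mul_mem_right _ (I.mul_mem_left _ h3))
    · rcases (show k = 1 ∨ 2 ≤ k by omega) with rfl | hk
      · simpa using hc
      · obtain ⟨m, rfl⟩ : ∃ m, k = m + 2 := ⟨k - 2, by omega⟩
        rw [preNormEDS'_odd]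
        have h4 := ih (m + 4) (by omega) (by omega)
        have h3 := ih (m + 3) (by omega) (by omega)
        exact I.sub_mem (I.mul_mem_right _ (I.mul_mem_right _ h4))
          (I.mul_mem_right _ (I.mul_mem_left _ (I.pow_mem_of_mem h3 3 (by norm_num))))

/-- The constant terms of the division polynomials form the `preNormEDS'` sequence with parameters
`b₆²`, `b₈`, `b₄b₈ − b₆²`. -/
theorem eval_zero_preΨ' (W : WeierstrassCurve R) (n : ℕ) :
    (W.preΨ' n).eval 0 = preNormEDS' (W.b₆ ^ 2) W.b₈ (W.b₄ * W.b₈ - W.b₆ ^ 2) n := by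
  have h := map_preNormEDS' (f := Polynomial.evalRingHom (0 : R)) (W.Ψ₂Sq ^ 2) W.Ψ₃ W.preΨ₄ n
  simp only [Polynomial.coe_evalRingHom] at h
  rw [preΨ', h]
  congr 1 <;> simp [Ψ₂Sq, Ψ₃, preΨ₄]

end EDS

/-! ### The constant term of `preΨ'_n` on a node model lies in `𝔪_A` -/

section Node

open Fermat.Agent.S13.AtTwo Fermat.Agent.S05

variable {K : Type*} [Field K] [DecidableEq K] {A : ValuationSubring K} {W : WeierstrassCurve K}

theorem eval_zero_preΨ'_mem_nonunits (H : NodeModel A W) {n : ℕ} (hn : 3 ≤ n) :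
    (W.preΨ' n).eval 0 ∈ A.nonunits := by
  have ha₄ : W.a₄ ∈ A := A.nonunits_subset H.a₄
  have h2 : (2 : K) ∈ A := ofNat_mem A 2
  -- `b₄ = 2 a₄`, `b₆ = 0`, `b₈ = - a₄²`
  have hb₄ : W.b₄ = 2 * W.a₄ := by simp [WeierstrassCurve.b₄, H.a₃]
  have hb₆ : W.b₆ = 0 := by simp [WeierstrassCurve.b₆, H.a₃, H.a₆]
  have hb₈ : W.b₈ = -(W.a₄ * W.a₄) := by
    simp [WeierstrassCurve.b₈, H.a₃, H.a₆]; ring
  -- lift the parameters to `↥A`
  obtain ⟨ha, ha4m⟩ := (A.mem_nonunits_iff_exists_mem_maximalIdeal).1 H.a₄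
  set a4 : A := ⟨W.a₄, ha⟩ with ha4
  set c' : A := -(a4 * a4) with hc'
  set d' : A := 2 * a4 * c' - 0 ^ 2 with hd'
  have hc'm : c' ∈ IsLocalRing.maximalIdeal A :=
    (IsLocalRing.maximalIdeal A).neg_mem ((IsLocalRing.maximalIdeal A).mul_mem_left _ ha4m)
  have hd'm : d' ∈ IsLocalRing.maximalIdeal A :=
    (IsLocalRing.maximalIdeal A).sub_mem ((IsLocalRing.maximalIdeal A).mul_mem_left _ hc'm)
      (by simp)
  have hmem := preNormEDS'_mem_of_mem (IsLocalRing.maximalIdeal A) ((0 : A) ^ 2) hc'm hd'm n hn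
  have hmap := map_preNormEDS' (f := A.subtype) ((0 : A) ^ 2) c' d' n
  have e : (W.preΨ' n).eval 0 = ((preNormEDS' ((0 : A) ^ 2) c' d' n : A) : K) := by
    rw [eval_zero_preΨ', hb₄, hb₆, hb₈]
    have := hmap
    simp only [ValuationSubring.coe_subtype] at this
    rw [this]
    congr 1
  rw [e]
  exact (A.mem_nonunits_iff_exists_mem_maximalIdeal).2 ⟨Subtype.property _, hmem⟩

/-- **(NODEPT)** On a node model over a valuation subring `A` of an algebraically closed field of
characteristic `0`, for an odd prime `p` that is a unit of `A`, some nonzero `p`-torsion point has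
its `x`-coordinate in `𝔪_A` (it reduces to the node). -/
theorem exists_torsion_x_mem_nonunits [CharZero K] [IsAlgClosed K] (H : NodeModel A W)
    (hΔ : W.Δ ≠ 0) {p : ℕ} (hp : p.Prime) (hp2 : p ≠ 2) (hpA : (p : K) ∉ A.nonunits) :
    ∃ (x y : K) (h : W.toAffine.Nonsingular x y),
      p • (Affine.Point.some x y h) = 0 ∧ x ∈ A.nonunits := by
  have hkey := Fermat.Agent.S13.Div.key_main W hΔ hp hp2
  have hp0 : (p : K) ≠ 0 := Nat.cast_ne_zero.mpr hp.ne_zero
  have hp3 : 3 ≤ p := by
    have := hp.two_le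
    omega
  have hodd : ¬ Even p := by
    rw [Nat.not_even_iff_odd]
    exact hp.odd_of_ne_two hp2
  have hf0 : W.preΨ' p ≠ 0 := W.preΨ'_ne_zero hp0
  have hlead : (W.preΨ' p).leadingCoeff = (p : K) := by
    rw [W.leadingCoeff_preΨ' hp0, if_neg hodd]
  have heval := (IsAlgClosed.splits (W.preΨ' p)).eval_eq_prod_roots 0
  have hconst := eval_zero_preΨ'_mem_nonunits H hp3
  by_contra hcon
  push Not at hcon
  -- every root is a unit of `A`
  have hroot : ∀ r ∈ (W.preΨ' p).roots, A.valuation r = 1 := by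
    intro r hr
    have hr0 : (W.preΨ' p).eval r = 0 := (Polynomial.mem_roots hf0).1 hr
    obtain ⟨y, hy⟩ := Fermat.Agent.S13.DP.Density.exists_equation W.toAffine r
    have hns : W.toAffine.Nonsingular r y :=
      (W.toAffine.equation_iff_nonsingular_of_Δ_ne_zero hΔ).1 hy
    have hT : p • (Affine.Point.some r y hns) = 0 :=
      (hkey r y hns).2 (by rw [preΨ_ofNat]; exact hr0)
    have hrA : r ∈ A := KR.x_mem_of_nsmul_eq_zero H.integralB hpA hns hT
    have hrn : r ∉ A.nonunits := hcon r y hns hT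
    have h1 : A.valuation r ≤ 1 := (A.valuation_le_one_iff r).2 hrA
    have h2 : ¬ A.valuation r < 1 := fun h => hrn ((A.mem_nonunits_iff).2 h)
    exact le_antisymm h1 (not_lt.mp h2)
  have hprod : A.valuation (((W.preΨ' p).roots.map (0 - ·)).prod) = 1 := by
    rw [map_multiset_prod, Multiset.map_map]
    apply Multiset.prod_eq_one
    intro v hv
    obtain ⟨r, hr, rfl⟩ := Multiset.mem_map.1 hv
    simp only [Function.comp_apply, zero_sub, Valuation.map_neg]
    exact hroot r hr
  have hpv : A.valuation (p : K) = 1 := by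
    have h1 : A.valuation (p : K) ≤ 1 := (A.valuation_le_one_iff _).2 (natCast_mem A p)
    have h2 : ¬ A.valuation (p : K) < 1 := fun h => hpA ((A.mem_nonunits_iff).2 h)
    exact le_antisymm h1 (not_lt.mp h2)
  have hv : A.valuation ((W.preΨ' p).eval 0) = 1 := by
    rw [heval, map_mul, hlead, hpv, hprod, one_mul]
  have := (A.mem_nonunits_iff).1 hconst
  rw [hv] at this
  exact lt_irrefl _ this

end Node

/-! ### The Frey curve at `2` -/

section Frey

open Fermat.Agent.S13.AtTwo Fermat.Agent.S05 Fermat.Agent.S51_helper12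
open WeierstrassCurve.Affine WeierstrassCurve.Affine.Point

/-- **(NODEPT) for the Frey curve.** For every valuation subring `A` of `ℚ̄` over `2`, some
nonzero `p`-torsion point of the Frey curve has its `x`-coordinate in `𝔪_A`. -/
theorem frey_exists_torsion_x_mem_nonunits (P : FreyPackage) (A : ValuationSubring Qbar)
    (hA : A.LiesOverPrime 2) :
    ∃ (x y : Qbar) (h : ((P.freyCurve : Affine ℚ)⁄Qbar).Nonsingular x y),
      P.p • (Point.some x y h : ((P.freyCurve : Affine ℚ)⁄Qbar).Point) = 0 ∧ x ∈ A.nonunits := by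
  have hp2 : P.p ≠ 2 := by have := P.hp5; omega
  exact exists_torsion_x_mem_nonunits (nodeModel_frey (K := Qbar) P A hA)
    (Fermat.Agent.S13.freyCurve_baseChange_Δ_ne_zero P) P.pp hp2 (p_notMem_nonunits P A hA)

end Frey

end Fermat.Agent.GB.Top.FreyTwo.NodePoint
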