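/-
GATE-B / T1 (GB-TOP-TWHYP-FREY), assembly in the `galoisRepModuleEnd` vocabulary (helper96).

Given a node point at `2` (`FixedX.HasNodePoint`, supplied by `NodePoint.lean`), the mod-`p`
representation of the Frey curve contains a transvection:
`∃ σ, ρ̄(σ) ≠ 1 ∧ (ρ̄(σ) - 1)² = 0`  — the `htrans` binder of the GATE-B top interface.
-/
import Fermat.Agent.GB.Top.FreyTwo.FixedX

set_option autoImplicit false
set_option linter.unusedSectionVars false
set_option linter.unusedVariables false

open WeierstrassCurve WeierstrassCurve.Affine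

namespace Fermat.Agent.GB.Top.FreyTwo.Transvection

open Fermat.Agent.S05 Fermat.Agent.S51_helper12 Fermat.Agent.S13.AtTwo
open Fermat.Agent.GB.Top.FreyTwo.FixedX
open WeierstrassCurve.Affine.Point

/-- the transvection statement for a curve over `ℚ`, `galoisRepModuleEnd` form. -/
def HasTransvectionModP (W : WeierstrassCurve ℚ) (p : ℕ) : Prop :=
  ∃ σ : AlgebraicClosure ℚ ≃ₐ[ℚ] AlgebraicClosure ℚ,
    galoisRepModuleEnd (K := AlgebraicClosure ℚ) ℚ W p σ ≠ 1 ∧
      (galoisRepModuleEnd (K := AlgebraicClosure ℚ) ℚ W p σ - 1) ^ 2 = 0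

/-- from the `Tors`-level statement to the `galoisRepModuleEnd` statement. -/
theorem hasTransvectionModP_of_tors (W : WeierstrassCurve ℚ) (p : ℕ)
    (h : ∃ σ : GalQ, (∃ t : Tors W p, σ • t ≠ t) ∧
      ∀ t : Tors W p, σ • (σ • t - t) = σ • t - t) : HasTransvectionModP W p := by
  obtain ⟨σ, ⟨t, ht⟩, hu⟩ := h
  refine ⟨σ, ?_, ?_⟩
  · intro h1
    apply ht
    have := LinearMap.congr_fun h1 t
    rwa [galoisRepModuleEnd_apply, Module.End.one_apply] at this
  · refine LinearMap.ext fun t => ?_
    rw [pow_two, Module.End.mul_apply, LinearMap.sub_apply, LinearMap.sub_apply,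
      Module.End.one_apply, Module.End.one_apply, galoisRepModuleEnd_apply,
      galoisRepModuleEnd_apply, LinearMap.zero_apply, hu t, sub_self]

/-- **T1 given a node point**: the mod-`p` representation of the Frey curve contains a
transvection. -/
theorem frey_hasTransvectionModP (P : FreyPackage) {A : ValuationSubring Qbar}
    (hA : A.LiesOverPrime 2) (hnode : HasNodePoint P A) :
    HasTransvectionModP P.freyCurve P.p :=
  hasTransvectionModP_of_tors P.freyCurve P.p (exists_transvection_tors hA hnode)

end Fermat.Agent.GB.Top.FreyTwo.Transvection
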