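/-
GATE-B / TOP / T1 (TWHYP-FREY), final plug: the mod-`p` representation of the Frey curve contains
a transvection (nontrivial unipotent element), coming from inertia at `2`.

  helper96 `Transvection.frey_hasTransvectionModP` (node point ⟹ transvection; S13 unipotent
  inertia at 2 + component theory + unramifiedness of the inertia field)
+ helper1 `NodePoint.frey_exists_torsion_x_mem_nonunits` (some `p`-torsion point reduces to the
  node: division polynomials vanish at the node).

Exports the `htrans` binder of helper53 5176 §3 in both spellings (`P.freyCurve` and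
`P.freyCurveInt.map (Int.castRingHom ℚ)`).
-/
import Fermat.Agent.GB.Top.FreyTwo.NodePoint
import Fermat.Agent.GB.Top.FreyTwo.Transvection
import Fermat.Agent.GB.Top.S43Frey

set_option autoImplicit false

namespace Fermat.Agent.GB.Top.FreyTwo.T1

open Fermat.Agent.GB.Top.FreyTwo
open WeierstrassCurve.Affine.Point

/-- **T1.** The mod-`p` Galois representation of the Frey curve contains a transvection. -/
theorem frey_hasTransvectionModP (P : FreyPackage) :
    Transvection.HasTransvectionModP P.freyCurve P.p := by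
  obtain ⟨A, hA⟩ := Fermat.Agent.Common_helper32.exists_liesOverPrime 2 Nat.prime_two
  exact Transvection.frey_hasTransvectionModP P hA
    (NodePoint.frey_exists_torsion_x_mem_nonunits P A hA)

/-- **T1**, spelled out: `∃ σ, ρ̄(σ) ≠ 1 ∧ (ρ̄(σ) − 1)² = 0` on `P.freyCurve`. -/
theorem frey_exists_transvection (P : FreyPackage) :
    ∃ σ : AlgebraicClosure ℚ ≃ₐ[ℚ] AlgebraicClosure ℚ,
      galoisRepModuleEnd (K := AlgebraicClosure ℚ) ℚ P.freyCurve P.p σ ≠ 1 ∧
        (galoisRepModuleEnd (K := AlgebraicClosure ℚ) ℚ P.freyCurve P.p σ - 1) ^ 2 = 0 :=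
  frey_hasTransvectionModP P

/-- **T1** for the semistable integral model `P.freyCurveInt` (the `W` of CaseB38). -/
theorem freyInt_exists_transvection (P : FreyPackage) :
    ∃ σ : AlgebraicClosure ℚ ≃ₐ[ℚ] AlgebraicClosure ℚ,
      galoisRepModuleEnd (K := AlgebraicClosure ℚ) ℚ
          (P.freyCurveInt.map (Int.castRingHom ℚ)) P.p σ ≠ 1 ∧
        (galoisRepModuleEnd (K := AlgebraicClosure ℚ) ℚ
          (P.freyCurveInt.map (Int.castRingHom ℚ)) P.p σ - 1) ^ 2 = 0 := by
  have h := frey_exists_transvection P
  rwa [Fermat.Agent.GB.Top.S43Frey.freyCurve_eq_map P] at h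

/-- **T1** in helper53's `htrans` shape: any integral model `W` with `W.map _ = P.freyCurve`. -/
theorem htrans_of_map_eq (P : FreyPackage) (W : WeierstrassCurve ℤ)
    (hW : W.map (Int.castRingHom ℚ) = P.freyCurve) :
    ∃ σ : AlgebraicClosure ℚ ≃ₐ[ℚ] AlgebraicClosure ℚ,
      galoisRepModuleEnd (K := AlgebraicClosure ℚ) ℚ (W.map (Int.castRingHom ℚ)) P.p σ ≠ 1 ∧
        (galoisRepModuleEnd (K := AlgebraicClosure ℚ) ℚ (W.map (Int.castRingHom ℚ)) P.p σ - 1) ^ 2
          = 0 := by
  rw [hW]
  exact frey_exists_transvection P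

end Fermat.Agent.GB.Top.FreyTwo.T1
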